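import Fermat.Agent.AVS.Res
import Fermat.Agent.AVn.Defs

/-!
# S26, block (h)/A2: the instance of the interface `AVar`
-/

set_option autoImplicit false

noncomputable section

universe u

open CategoryTheory CategoryTheory.Limits AlgebraicGeometry NeronModelInfra GoodReductionJacobian
open IsLocalRing

namespace Fermat.Agent.AVS

variable {K : Type u} [Field K] {A : Scheme.{u}}

/-- the generic `K(A)`-point. -/
def genPt (f : A ⟶ Spec (CommRingCat.of K)) [IsIntegral A] :
    Pt f (kStalk f (genericPoint A)) := stalkPt f (genericPoint A)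

theorem stalkSpec_comp_kStalk (f : A ⟶ Spec (CommRingCat.of K)) {ξ η : A} (h : η ⤳ ξ) :
    (A.presheaf.stalkSpecializes h).hom.comp (kStalk f ξ) = kStalk f η := by
  unfold kStalk
  rw [← CommRingCat.hom_comp]
  simp only [Category.assoc, TopCat.Presheaf.germ_stalkSpecializes]

theorem mapPt_stalkSpec (f : A ⟶ Spec (CommRingCat.of K)) {ξ η : A} (h : η ⤳ ξ) :
    mapPt (A.presheaf.stalkSpecializes h).hom (stalkSpec_comp_kStalk f h) (stalkPt f ξ) =
      stalkPt f η := by
  apply Subtype.ext
  rw [mapPt_coe, stalkPt_coe, stalkPt_coe]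
  exact Scheme.SpecMap_stalkSpecializes_fromSpecStalk h

/-- scheme-level input of the construction of an `AVar`. -/
structure Input (f : A ⟶ Spec (CommRingCat.of K)) [IsIntegral A] (g : ℕ) : Prop where
  fg : ∀ ξ : A, letI := (kRes f ξ).toAlgebra; Algebra.EssFiniteType K (A.residueField ξ)
  trdeg_le : ∀ ξ : A, letI := (kRes f ξ).toAlgebra; Algebra.trdeg K (A.residueField ξ) ≤ g
  trdeg_eq : ∀ ξ : A, letI := (kRes f ξ).toAlgebra; Algebra.trdeg K (A.residueField ξ) = g →
    ξ = genericPoint A
  trdeg_gen : letI := (kRes f (genericPoint A)).toAlgebra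
    Algebra.trdeg K (A.residueField (genericPoint A)) = g
  val : ∀ ξ : A, letI := (kRes f ξ).toAlgebra
    (g : Cardinal) ≤ Algebra.trdeg K (A.residueField ξ) + 1 → ValuationRing (A.presheaf.stalk ξ)

theorem bijective_residue_generic [IsIntegral A] :
    Function.Bijective (A.residue (genericPoint A)).hom :=
  ⟨by
    rw [injective_iff_map_eq_zero]
    intro a ha
    by_contra hne
    obtain ⟨b, hb⟩ : ∃ b : A.functionField, a * b = 1 :=
      ⟨(show A.functionField from a)⁻¹, mul_inv_cancel₀ (G₀ := A.functionField) hne⟩
    have := congrArg (A.residue (genericPoint A)).hom hb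
    rw [map_mul, ha, zero_mul, map_one] at this
    exact zero_ne_one this, residue_surjective _⟩

/-- `κ(η) ≃ K(A)`. -/
def genEquiv (f : A ⟶ Spec (CommRingCat.of K)) [IsIntegral A] :
    letI := (kRes f (genericPoint A)).toAlgebra
    letI := (kStalk f (genericPoint A)).toAlgebra
    A.functionField ≃ₐ[K] A.residueField (genericPoint A) :=
  letI := (kRes f (genericPoint A)).toAlgebra
  letI := (kStalk f (genericPoint A)).toAlgebra
  AlgEquiv.ofBijective
    ({ (A.residue (genericPoint A)).hom with commutes' := fun _ => rfl } :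
      A.functionField →ₐ[K] A.residueField (genericPoint A))
    bijective_residue_generic

section

variable (f : A ⟶ Spec (CommRingCat.of K)) [IsIntegral A] [IsProper f]
  (L : RelativeGroupLaw K f) (hc : L.IsCommutative) (g : ℕ) (hI : Input f g)

theorem isLocalHom_toRingHom {O κ : Type u} [CommRing O] [Algebra K O] [Field κ] [Algebra K κ]
    (r : O →ₐ[K] κ) [h : IsLocalHom r] : IsLocalHom r.toRingHom :=
  ⟨fun a ha => h.map_nonunit a ha⟩

omit [IsProper f] in
include hI in
theorem center_eq_generic {Ω : Type u} [Field Ω] [Algebra K Ω] (z : Pt f (algebraMap K Ω))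
    (hz : Algebra.trdeg K (fdPt z) = g) : center z = genericPoint A := by
  apply hI.trdeg_eq
  rw [← hz, trdeg_fdPt z rfl]

/-- The interface `AVar` for an abelian variety. -/
def avar : AVn.AVar K g where
  Pt := fun R _ _ => Pt f (algebraMap K R)
  grp := fun R _ _ => ptAddCommGroup L hc (algebraMap K R)
  map := fun φ x => mapPt φ.toRingHom φ.comp_algebraMap x
  map_add := fun φ x y => mapPt_mul L _ _ x y
  map_id := fun x => mapPt_id _ x
  map_comp := fun φ ψ x => (mapPt_mapPt _ _ _ _ x).symm
  map_injective := fun φ => mapPt_injective_of_field _ _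
  fd := fun z => fdPt z
  fd_le_iff := fun z k => fdPt_le_iff z k
  fd_fg := fun z => fg_fdPt z (hI.fg _)
  trdeg_fd_le := fun z => by
    rw [trdeg_fdPt z rfl]; exact hI.trdeg_le _
  val_bijective := fun {O L'} _ _ _ _ _ _ _ _ _ =>
    mapPt_bijective_of_valuationRing _
  F := A.functionField
  instF := inferInstance
  algF := (kStalk f (genericPoint A)).toAlgebra
  trdeg_F := by
    letI := (kStalk f (genericPoint A)).toAlgebra
    letI := (kRes f (genericPoint A)).toAlgebra
    rw [← hI.trdeg_gen]
    exact (genEquiv f).trdeg_eq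
  gen := genPt f
  fd_gen := by
    let _ := (kStalk f (genericPoint A)).toAlgebra
    let _ := (kRes f (genericPoint A)).toAlgebra
    let α : A.residueField (genericPoint A) →ₐ[K] A.functionField := (genEquiv f).symm
    rw [eq_top_iff]
    intro c _
    have h1 : α.toRingHom.comp (kRes f (genericPoint A)) = kStalk f (genericPoint A) := by
      ext c
      exact α.commutes c
    refine (mem_fdPt_of_eq (f := f) α.toRingHom h1 ?_).2 ⟨genEquiv f c, (genEquiv f).symm_apply_apply c⟩
    rw [resPt, mapPt_mapPt]
    have h2 : α.toRingHom.comp (A.residue (genericPoint A)).hom = RingHom.id _ := by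
      ext c
      exact (genEquiv f).symm_apply_apply c
    rw [mapPt_congr h2 _ (by rfl), mapPt_id]
    rfl
  exists_ev := fun {Ω} _ _ z hz => by
    letI := (kStalk f (genericPoint A)).toAlgebra
    obtain ⟨φ, hφ, -, h⟩ := exists_stalkHom z (center_eq_generic f g hI z hz)
    exact ⟨{ φ with commutes' := fun c => congrArg (fun g => g c) hφ }, h⟩
  ev_unique := fun {Ω} _ _ φ ψ h => by
    letI := (kStalk f (genericPoint A)).toAlgebra
    have := stalkHom_unique (f := f) φ.comp_algebraMap ψ.comp_algebraMap h
    ext a
    exact congrArg (fun g => g a) this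
  spec := fun {O κ} _ _ _ _ _ r _ z hz => by
    letI := (kStalk f (genericPoint A)).toAlgebra
    haveI := isLocalHom_toRingHom r
    have e : center z = genericPoint A := by
      rw [← center_mapPt r.toRingHom r.comp_algebraMap z]
      exact center_eq_generic f g hI _ hz
    obtain ⟨φ, hφ, -, h⟩ := exists_stalkHom z e
    exact ⟨{ φ with commutes' := fun c => congrArg (fun g => g c) hφ }, h⟩
  cod1 := fun {O L' κ} _ _ _ _ _ _ _ _ _ _ _ r _ z φ hφ hz s => by
    letI := (kStalk f (genericPoint A)).toAlgebra
    haveI := isLocalHom_toRingHom r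
    have e : center (mapPt r.toRingHom r.comp_algebraMap z) = center z := center_mapPt _ _ _
    haveI : ValuationRing (A.presheaf.stalk (center z)) := by
      refine hI.val _ ?_
      rwa [← trdeg_fdPt _ e]
    -- the two maps `O_ξ → L'`
    have hcomm : φ.toRingHom.comp (A.presheaf.stalkSpecializes
        ((genericPoint_spec A).specializes trivial)).hom =
        (algebraMap O L').comp (stalkHom z) := by
      refine stalkHom_unique (f := f) (i := algebraMap K L') ?_ ?_ ?_
      · rw [RingHom.comp_assoc, stalkSpec_comp_kStalk]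
        exact φ.comp_algebraMap
      · rw [RingHom.comp_assoc, stalkHom_comp_kStalk]
        exact (IsScalarTower.algebraMap_eq K O L').symm
      · have h1 := mapPt_mapPt (A.presheaf.stalkSpecializes
          ((genericPoint_spec A).specializes trivial)).hom
          (stalkSpec_comp_kStalk f ((genericPoint_spec A).specializes trivial)) φ.toRingHom
          φ.comp_algebraMap (stalkPt f (center z))
        have h2 := mapPt_mapPt (stalkHom z) (stalkHom_comp_kStalk z) (algebraMap O L')
          (IsScalarTower.algebraMap_eq K O L').symm (stalkPt f (center z))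
        rw [← h1, ← h2, mapPt_stalkHom, mapPt_stalkSpec]
        exact hφ
    have key : ∀ (t : A.presheaf.stalk (center z)) (s' : A.functionField),
        algebraMap (A.presheaf.stalk (center z)) A.functionField t = s' →
        ∃ y : O, algebraMap O L' y = φ s' ∧
          r y ∈ fdPt (mapPt r.toRingHom r.comp_algebraMap z) := by
      rintro t _ rfl
      refine ⟨stalkHom z t, ?_, ?_⟩
      · exact (congrArg (fun g => g t) hcomm).symm
      · have h2 := mapPt_mapPt (stalkHom z) (stalkHom_comp_kStalk z) r.toRingHom
          r.comp_algebraMap (stalkPt f (center z))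
        rw [mapPt_stalkHom] at h2
        haveI : IsLocalHom (r.toRingHom.comp (stalkHom z)) := RingHom.isLocalHom_comp _ _
        exact mem_fdPt_of_stalk (r.toRingHom.comp (stalkHom z)) _ h2.symm t
    rcases ValuationRing.isInteger_or_isInteger (A.presheaf.stalk (center z)) s with h | h
    · obtain ⟨t, ht⟩ := h
      exact Or.inl (key t s ht)
    · obtain ⟨t, ht⟩ := h
      obtain ⟨y, hy, hy'⟩ := key t _ ht
      exact Or.inr ⟨y, by rw [hy, map_inv₀], hy'⟩

end

end Fermat.Agent.AVS

end
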