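import Fermat.Agent.AVS.Stalk

/-!
# S26, block (h): the field of definition of a point with values in a field
-/

set_option autoImplicit false

noncomputable section

universe u

open CategoryTheory CategoryTheory.Limits AlgebraicGeometry NeronModelInfra GoodReductionJacobian
open IsLocalRing

namespace Fermat.Agent.AVS

variable {K : Type u} [Field K] {A : Scheme.{u}} {f : A ⟶ Spec (CommRingCat.of K)}

section

variable {Ω : Type u} [Field Ω] {i : K →+* Ω}

theorem center_mapPt_resPt {ξ : A} (α : A.residueField ξ →+* Ω) (h : α.comp (kRes f ξ) = i) :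
    center (mapPt α h (resPt f ξ)) = ξ := by
  rw [center_mapPt, center_resPt]

/-- the residue field embedding is determined by the point. -/
theorem fieldRange_resHom (z : Pt f i) {ξ : A} (α : A.residueField ξ →+* Ω)
    (h : α.comp (kRes f ξ) = i) (hz : mapPt α h (resPt f ξ) = z) :
    (resHom z).fieldRange = α.fieldRange := by
  have e : center z = ξ := by rw [← hz, center_mapPt_resPt]
  subst e
  have : α = resHom z := resHom_unique h (resHom_comp_kRes z) (hz.trans (mapPt_resHom z).symm)
  rw [this]

/-- `stalkHom` for a known center. -/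
theorem exists_stalkHom {B : Type u} [CommRing B] [IsLocalRing B] {i : K →+* B} (z : Pt f i)
    {ξ : A} (e : center z = ξ) :
    ∃ (φ : A.presheaf.stalk ξ →+* B) (h : φ.comp (kStalk f ξ) = i), IsLocalHom φ ∧
      mapPt φ h (stalkPt f ξ) = z := by
  subst e
  exact ⟨stalkHom z, stalkHom_comp_kStalk z, inferInstance, mapPt_stalkHom z⟩

theorem exists_resHom (z : Pt f i) {ξ : A} (e : center z = ξ) :
    ∃ (φ : A.residueField ξ →+* Ω) (h : φ.comp (kRes f ξ) = i),
      mapPt φ h (resPt f ξ) = z := by
  subst e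
  exact ⟨resHom z, resHom_comp_kRes z, mapPt_resHom z⟩

/-- points with values in fields: injectivity of base change. -/
theorem mapPt_injective_of_field {Ω' : Type u} [Field Ω'] {i' : K →+* Ω'} (φ : Ω →+* Ω')
    (h : φ.comp i = i') : Function.Injective (mapPt (f := f) φ h) := by
  intro x y hxy
  have e : center x = center y := by
    rw [← center_mapPt φ h x, hxy, center_mapPt φ h y]
  obtain ⟨α, hα, hx⟩ := exists_resHom x e
  obtain ⟨β, hβ, hy⟩ := exists_resHom y rfl
  have hxy' : mapPt φ h (mapPt α hα (resPt f (center y))) =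
      mapPt φ h (mapPt β hβ (resPt f (center y))) := by rw [hx, hy]; exact hxy
  rw [mapPt_mapPt, mapPt_mapPt] at hxy'
  have h1 := resHom_unique _ _ hxy'
  have h2 : α = β := by
    ext a
    exact φ.injective (congrArg (fun g => g a) h1)
  exact hx.symm.trans ((mapPt_congr h2 _ _ _).trans hy)

end

section Alg

variable {Ω : Type u} [Field Ω] [Algebra K Ω]

/-- the field of definition `K(z)` of a point with values in a field. -/
def fdPt (z : Pt f (algebraMap K Ω)) : IntermediateField K Ω :=
  (resHom z).fieldRange.toIntermediateField (fun c => ⟨kRes f (center z) c,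
    congrArg (· c) (resHom_comp_kRes z)⟩)

theorem mem_fdPt {z : Pt f (algebraMap K Ω)} {c : Ω} :
    c ∈ fdPt z ↔ ∃ a, resHom z a = c := Iff.rfl

theorem mem_fdPt_of_eq {z : Pt f (algebraMap K Ω)} {ξ : A} (α : A.residueField ξ →+* Ω)
    (h : α.comp (kRes f ξ) = algebraMap K Ω) (hz : mapPt α h (resPt f ξ) = z) {c : Ω} :
    c ∈ fdPt z ↔ ∃ a, α a = c := by
  have h1 := fieldRange_resHom z α h hz
  have h2 : c ∈ fdPt z ↔ c ∈ (resHom z).fieldRange := Iff.rfl
  rw [h2, h1]
  exact Iff.rfl

theorem stalkHom_mem_fdPt (z : Pt f (algebraMap K Ω)) (a : A.presheaf.stalk (center z)) :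
    stalkHom z a ∈ fdPt z :=
  ⟨(A.residue (center z)).hom a, rfl⟩

theorem mem_fdPt_of_stalk {z : Pt f (algebraMap K Ω)} {ξ : A} (φ : A.presheaf.stalk ξ →+* Ω)
    [IsLocalHom φ] (h : φ.comp (kStalk f ξ) = algebraMap K Ω)
    (hz : mapPt φ h (stalkPt f ξ) = z) (a : A.presheaf.stalk ξ) : φ a ∈ fdPt z := by
  have e : center z = ξ := by rw [← hz, center_mapPt_stalkPt]
  subst e
  have : φ = stalkHom z :=
    stalkHom_unique h (stalkHom_comp_kStalk z) (hz.trans (mapPt_stalkHom z).symm)
  rw [this]
  exact stalkHom_mem_fdPt z a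

theorem fdPt_le_iff (z : Pt f (algebraMap K Ω)) (k : IntermediateField K Ω) :
    fdPt z ≤ k ↔ ∃ z' : Pt f (algebraMap K k), mapPt k.val.toRingHom k.val.comp_algebraMap z' =
      z := by
  constructor
  · intro hk
    let α : A.residueField (center z) →+* k := (resHom z).codRestrict k.toSubfield
      (fun a => hk ⟨a, rfl⟩)
    have hα : α.comp (kRes f (center z)) = algebraMap K k := by
      ext c
      exact congrArg (· c) (resHom_comp_kRes z)
    refine ⟨mapPt α hα (resPt f (center z)), ?_⟩
    rw [mapPt_mapPt]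
    exact mapPt_resHom z
  · rintro ⟨z', rfl⟩ c hc
    obtain ⟨α, hα, hz'⟩ := exists_resHom z' rfl
    rw [← hz'] at hc
    rw [mapPt_mapPt] at hc
    obtain ⟨a, rfl⟩ := (mem_fdPt_of_eq _ _ rfl).1 hc
    exact (α a).2

/-- `κ(ξ) ≃ K(z)`. -/
def resEquiv (z : Pt f (algebraMap K Ω)) :
    letI := (kRes f (center z)).toAlgebra
    A.residueField (center z) ≃ₐ[K] fdPt z :=
  letI := (kRes f (center z)).toAlgebra
  AlgEquiv.ofBijective
    ({ (resHom z).rangeRestrictField with
        commutes' := fun c => Subtype.ext (congrArg (· c) (resHom_comp_kRes z)) } :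
      A.residueField (center z) →ₐ[K] fdPt z)
    ⟨fun a b hab => (resHom z).injective (congrArg Subtype.val hab),
      fun ⟨c, a, ha⟩ => ⟨a, Subtype.ext ha⟩⟩

theorem trdeg_fdPt (z : Pt f (algebraMap K Ω)) {ξ : A} (e : center z = ξ) :
    letI := (kRes f ξ).toAlgebra
    Algebra.trdeg K (fdPt z) = Algebra.trdeg K (A.residueField ξ) := by
  subst e
  letI := (kRes f (center z)).toAlgebra
  exact (resEquiv z).trdeg_eq.symm

theorem fg_fdPt (z : Pt f (algebraMap K Ω))
    (h : letI := (kRes f (center z)).toAlgebra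
      Algebra.EssFiniteType K (A.residueField (center z))) : (fdPt z).FG := by
  letI := (kRes f (center z)).toAlgebra
  rw [← IntermediateField.essFiniteType_iff]
  haveI := h
  exact (Algebra.EssFiniteType.iff_of_algEquiv (resEquiv z)).1 h

end Alg

end Fermat.Agent.AVS

end
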