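import Fermat.Agent.AVS.Inst
import Fermat.Agent.AVn.Stmts

/-!
# S26: from `CountStmt` to torsion points
-/

set_option autoImplicit false

noncomputable section

universe u

open CategoryTheory CategoryTheory.Limits AlgebraicGeometry NeronModelInfra GoodReductionJacobian
open GoodReductionJacobian.RelativeGroupLaw

namespace Fermat.Agent.AVS

variable {K : Type u} [Field K] {A : Scheme.{u}} {f : A ⟶ Spec (CommRingCat.of K)}

theorem nsmul_eq_nsmul (L : RelativeGroupLaw K f) (hc : L.IsCommutative) {B : Type u} [CommRing B]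
    (i : K →+* B) (n : ℕ) (x : Pt f i) :
    (letI := ptAddCommGroup L hc i; n • x) = L.nsmul (Spec.map (CommRingCat.ofHom i)) n x := by
  letI := ptAddCommGroup L hc i
  induction n with
  | zero => exact zero_nsmul x
  | succ n ih =>
    rw [nsmul_succ, ← ih]
    exact succ_nsmul x n

theorem isTorsionPoint_iff (L : RelativeGroupLaw K f) (hc : L.IsCommutative) {B : Type u}
    [CommRing B] (i : K →+* B) (n : ℕ) (x : Pt f i) :
    L.IsTorsionPoint (Spec.map (CommRingCat.ofHom i)) n x ↔
      (letI := ptAddCommGroup L hc i; n • x = 0) := by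
  rw [isTorsionPoint_def, ← nsmul_eq_nsmul L hc i n x]
  exact Iff.rfl

theorem natCard_torsion_congr (L : RelativeGroupLaw K f) (n : ℕ)
    (t t' : Spec (CommRingCat.of K) ⟶ Spec (CommRingCat.of K)) (e : t = t') :
    Nat.card {x : SchemeHomOver t f // L.IsTorsionPoint t n x} =
      Nat.card {x : SchemeHomOver t' f // L.IsTorsionPoint t' n x} := by
  subst e; rfl

theorem specMap_algebraMap_self :
    Spec.map (CommRingCat.ofHom (algebraMap K K)) = 𝟙 (Spec (CommRingCat.of K)) := by
  have : CommRingCat.ofHom (algebraMap K K) = 𝟙 (CommRingCat.of K) := rfl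
  rw [this, Spec.map_id]

/-- the number of `n`-torsion points from `CountStmt`. -/
theorem natCard_of_countStmt [IsIntegral A] [IsProper f] (L : RelativeGroupLaw K f)
    (hc : L.IsCommutative) (g : ℕ) (hI : Input f g)
    (hC : (avar f L hc g hI).CountStmt) (n : ℕ) (hn : (n : K) ≠ 0) :
    Nat.card {x : SchemeHomOver (𝟙 (Spec (CommRingCat.of K))) f //
        L.IsTorsionPoint (𝟙 (Spec (CommRingCat.of K))) n x} = n ^ (2 * g) := by
  rw [← hC n hn, ← natCard_torsion_congr L n _ _ (specMap_algebraMap_self (K := K))]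
  refine Nat.card_congr (Equiv.subtypeEquivRight fun x => ?_)
  exact isTorsionPoint_iff L hc (algebraMap K K) n x

end Fermat.Agent.AVS

end
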