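import Fermat.Agent.AVS.Points

/-!
# S26, block (h): specialization of points along valuation rings
-/

set_option autoImplicit false

noncomputable section

universe u

open CategoryTheory CategoryTheory.Limits AlgebraicGeometry NeronModelInfra GoodReductionJacobian

namespace Fermat.Agent.AVS

variable {K : Type u} [Field K] {A : Scheme.{u}} {f : A ⟶ Spec (CommRingCat.of K)}

/-- `K → R` for a valuation ring `R` of `k` containing `K`. -/
def kVal {k : Type u} [Field k] (ik : K →+* k) (R : ValuationSubring k)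
    (hR : ∀ c, ik c ∈ R) : K →+* R :=
  ik.codRestrict R.toSubring hR

@[simp]
theorem kVal_coe {k : Type u} [Field k] (ik : K →+* k) (R : ValuationSubring k)
    (hR : ∀ c, ik c ∈ R) (c : K) : (kVal ik R hR c : k) = ik c := rfl

theorem algebraMap_comp_kVal {k : Type u} [Field k] (ik : K →+* k) (R : ValuationSubring k)
    (hR : ∀ c, ik c ∈ R) : (algebraMap R k).comp (kVal ik R hR) = ik := by
  ext c; rfl

/-- the `R`-point extending a `k`-point, `R` a valuation ring of `k` containing `K`. -/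
def valPt [IsProper f] {k : Type u} [Field k] {ik : K →+* k} (R : ValuationSubring k)
    (hR : ∀ c, ik c ∈ R) (x : Pt f ik) : Pt f (kVal ik R hR) :=
  liftPt (algebraMap_comp_kVal ik R hR) x

@[simp]
theorem mapPt_valPt [IsProper f] {k : Type u} [Field k] {ik : K →+* k} (R : ValuationSubring k)
    (hR : ∀ c, ik c ∈ R) (x : Pt f ik) :
    mapPt (algebraMap R k) (algebraMap_comp_kVal ik R hR) (valPt R hR x) = x :=
  mapPt_liftPt _ _

theorem valPt_eq_iff [IsProper f] {k : Type u} [Field k] {ik : K →+* k} (R : ValuationSubring k)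
    (hR : ∀ c, ik c ∈ R) (x : Pt f ik) (y : Pt f (kVal ik R hR)) :
    valPt R hR x = y ↔ x = mapPt (algebraMap R k) (algebraMap_comp_kVal ik R hR) y :=
  liftPt_eq_iff _ _ _

theorem valPt_mul [IsProper f] (L : RelativeGroupLaw K f) {k : Type u} [Field k] {ik : K →+* k}
    (R : ValuationSubring k) (hR : ∀ c, ik c ∈ R) (x y : Pt f ik) :
    valPt R hR (L.mul _ x y) = L.mul _ (valPt R hR x) (valPt R hR y) :=
  liftPt_mul L _ x y

theorem valPt_one [IsProper f] (L : RelativeGroupLaw K f) {k : Type u} [Field k] {ik : K →+* k}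
    (R : ValuationSubring k) (hR : ∀ c, ik c ∈ R) :
    valPt R hR (L.one (Spec.map (CommRingCat.ofHom ik))) =
      L.one (Spec.map (CommRingCat.ofHom (kVal ik R hR))) :=
  liftPt_one L _

/-- functoriality of `valPt` for `σ : k → k'` mapping `R` into `R'`. -/
theorem valPt_mapPt [IsProper f] {k k' : Type u} [Field k] [Field k'] {ik : K →+* k}
    {ik' : K →+* k'} (R : ValuationSubring k) (hR : ∀ c, ik c ∈ R) (R' : ValuationSubring k')
    (hR' : ∀ c, ik' c ∈ R') (σ : k →+* k') (hσ : σ.comp ik = ik') (τ : R →+* R')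
    (hτ : ∀ r : R, (τ r : k') = σ r) (x : Pt f ik) :
    valPt R' hR' (mapPt σ hσ x) =
      mapPt τ (by ext c; rw [RingHom.comp_apply, hτ, kVal_coe, kVal_coe]; exact congrArg (· c) hσ)
        (valPt R hR x) := by
  rw [valPt_eq_iff, mapPt_mapPt]
  conv_lhs => rw [← mapPt_valPt R hR x, mapPt_mapPt]
  refine mapPt_congr ?_ _ _ _
  ext r
  exact (hτ r).symm

/-- specialization along `π : R → B` (`B` any `K`-algebra). -/
def spPt [IsProper f] {k : Type u} [Field k] {ik : K →+* k} (R : ValuationSubring k)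
    (hR : ∀ c, ik c ∈ R) {B : Type u} [CommRing B] {iB : K →+* B} (π : R →+* B)
    (hπ : π.comp (kVal ik R hR) = iB) (x : Pt f ik) : Pt f iB :=
  mapPt π hπ (valPt R hR x)

theorem spPt_mul [IsProper f] (L : RelativeGroupLaw K f) {k : Type u} [Field k] {ik : K →+* k}
    (R : ValuationSubring k) (hR : ∀ c, ik c ∈ R) {B : Type u} [CommRing B] {iB : K →+* B}
    (π : R →+* B) (hπ : π.comp (kVal ik R hR) = iB) (x y : Pt f ik) :
    spPt R hR π hπ (L.mul _ x y) = L.mul _ (spPt R hR π hπ x) (spPt R hR π hπ y) := by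
  rw [spPt, valPt_mul, mapPt_mul]; rfl

theorem spPt_one [IsProper f] (L : RelativeGroupLaw K f) {k : Type u} [Field k] {ik : K →+* k}
    (R : ValuationSubring k) (hR : ∀ c, ik c ∈ R) {B : Type u} [CommRing B] {iB : K →+* B}
    (π : R →+* B) (hπ : π.comp (kVal ik R hR) = iB) :
    spPt R hR π hπ (L.one (Spec.map (CommRingCat.ofHom ik))) =
      L.one (Spec.map (CommRingCat.ofHom iB)) := by
  rw [spPt, valPt_one, mapPt_one]

/-- `spPt` as an additive homomorphism. -/
def spPtHom [IsProper f] (L : RelativeGroupLaw K f) (hc : L.IsCommutative) {k : Type u} [Field k]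
    {ik : K →+* k} (R : ValuationSubring k) (hR : ∀ c, ik c ∈ R) {B : Type u} [CommRing B]
    {iB : K →+* B} (π : R →+* B) (hπ : π.comp (kVal ik R hR) = iB) :
    letI := ptAddCommGroup L hc ik
    letI := ptAddCommGroup L hc iB
    Pt f ik →+ Pt f iB :=
  letI := ptAddCommGroup L hc ik
  letI := ptAddCommGroup L hc iB
  { toFun := spPt R hR π hπ
    map_zero' := spPt_one L R hR π hπ
    map_add' := spPt_mul L R hR π hπ }

/-- specialization along the trivial valuation ring is functoriality. -/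
theorem spPt_top [IsProper f] {k : Type u} [Field k] {ik : K →+* k}
    {B : Type u} [CommRing B] {iB : K →+* B} (σ : k →+* B) (hσ : σ.comp ik = iB)
    (R : ValuationSubring k) (hR : ∀ c, ik c ∈ R) (π : R →+* B) (hπ : ∀ r : R, π r = σ r)
    (x : Pt f ik) :
    spPt R hR π (by ext c; rw [RingHom.comp_apply, hπ, kVal_coe]; exact congrArg (· c) hσ) x =
      mapPt σ hσ x := by
  rw [spPt]
  conv_rhs => rw [← mapPt_valPt R hR x, mapPt_mapPt]
  refine mapPt_congr ?_ _ _ _
  ext r
  exact hπ r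

/-- further mapping of a specialization. -/
theorem mapPt_spPt [IsProper f] {k : Type u} [Field k] {ik : K →+* k} (R : ValuationSubring k)
    (hR : ∀ c, ik c ∈ R) {B B' : Type u} [CommRing B] [CommRing B'] {iB : K →+* B}
    {iB' : K →+* B'} (π : R →+* B) (hπ : π.comp (kVal ik R hR) = iB) (ψ : B →+* B')
    (hψ : ψ.comp iB = iB') (x : Pt f ik) :
    mapPt ψ hψ (spPt R hR π hπ x) =
      spPt R hR (ψ.comp π) (by rw [RingHom.comp_assoc, hπ, hψ]) x := by
  rw [spPt, mapPt_mapPt]; rfl

/-- naturality: `σ : k → k'`, `τ : R → R'` compatible. -/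
theorem spPt_mapPt [IsProper f] {k k' : Type u} [Field k] [Field k'] {ik : K →+* k}
    {ik' : K →+* k'} (R : ValuationSubring k) (hR : ∀ c, ik c ∈ R) (R' : ValuationSubring k')
    (hR' : ∀ c, ik' c ∈ R') (σ : k →+* k') (hσ : σ.comp ik = ik') (τ : R →+* R')
    (hτ : ∀ r : R, (τ r : k') = σ r) {B : Type u} [CommRing B] {iB : K →+* B} (π' : R' →+* B)
    (hπ' : π'.comp (kVal ik' R' hR') = iB) (x : Pt f ik) :
    spPt R' hR' π' hπ' (mapPt σ hσ x) =
      spPt R hR (π'.comp τ) (by
        rw [← hπ', RingHom.comp_assoc]; congr 1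
        ext c; rw [RingHom.comp_apply, hτ, kVal_coe, kVal_coe]; exact congrArg (· c) hσ) x := by
  rw [spPt, valPt_mapPt R hR R' hR' σ hσ τ hτ, mapPt_mapPt]; rfl

/-- composites: `S ⊆ R ⊆ k`, `π : R → k'`, `R' ⊆ k'`, `τ : S → R'` the restriction of `π`. -/
theorem spPt_spPt [IsProper f] {k k' : Type u} [Field k] [Field k'] {ik : K →+* k}
    {ik' : K →+* k'} (R : ValuationSubring k) (hR : ∀ c, ik c ∈ R) (π : R →+* k')
    (hπ : π.comp (kVal ik R hR) = ik') (R' : ValuationSubring k') (hR' : ∀ c, ik' c ∈ R')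
    {B : Type u} [CommRing B] {iB : K →+* B} (π' : R' →+* B)
    (hπ' : π'.comp (kVal ik' R' hR') = iB)
    (S : ValuationSubring k) (hS : ∀ c, ik c ∈ S) (hSR : S ≤ R) (τ : S →+* R')
    (hτ : ∀ s : S, (τ s : k') = π ⟨s, hSR s.2⟩) (x : Pt f ik) :
    spPt R' hR' π' hπ' (spPt R hR π hπ x) =
      spPt S hS (π'.comp τ) (by
        rw [← hπ', RingHom.comp_assoc]; congr 1
        ext c
        rw [RingHom.comp_apply, hτ]
        exact congrArg (· c) hπ) x := by
  have h1 : valPt R hR x = mapPt (ValuationSubring.inclusion S R hSR) (by ext c; rfl)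
      (valPt S hS x) := by
    rw [valPt_eq_iff, mapPt_mapPt]
    conv_lhs => rw [← mapPt_valPt S hS x]
    rfl
  have h2 : valPt R' hR' (spPt R hR π hπ x) = mapPt τ (by
        ext c
        rw [RingHom.comp_apply, hτ]
        exact congrArg (· c) hπ) (valPt S hS x) := by
    rw [valPt_eq_iff, mapPt_mapPt, spPt, h1, mapPt_mapPt]
    refine mapPt_congr ?_ _ _ _
    ext s
    exact (hτ s).symm
  rw [spPt, h2, mapPt_mapPt]
  rfl

/-- `sp` depends only on the ring hom. -/
theorem spPt_congr [IsProper f] {k : Type u} [Field k] {ik : K →+* k} (R : ValuationSubring k)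
    (hR : ∀ c, ik c ∈ R) {B : Type u} [CommRing B] {iB : K →+* B} {π π' : R →+* B}
    (e : π = π') (hπ : π.comp (kVal ik R hR) = iB) (hπ' : π'.comp (kVal ik R hR) = iB)
    (x : Pt f ik) : spPt R hR π hπ x = spPt R hR π' hπ' x := by
  subst e; rfl

end Fermat.Agent.AVS

end
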