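import Mathlib
import Fermat.Prelude.Def_JacJ1Iface
import Fermat.Prelude.Def_GoodReductionJacobian_RelativeGroupLawKernel

/-!
# S26, block (h): the points functor of a scheme over a field `K`

`Pt f i` = morphisms `Spec B ⟶ A` over `Spec K`, for a ring homomorphism `i : K →+* B`.
-/

set_option autoImplicit false

noncomputable section

universe u

open CategoryTheory CategoryTheory.Limits AlgebraicGeometry NeronModelInfra GoodReductionJacobian

namespace Fermat.Agent.AVS

variable {K : Type u} [Field K] {A : Scheme.{u}} (f : A ⟶ Spec (CommRingCat.of K))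

/-- `B`-points of `A/K`, `B` a `K`-algebra via `i : K →+* B`. -/
abbrev Pt {B : Type u} [CommRing B] (i : K →+* B) : Type u :=
  SchemeHomOver (Spec.map (CommRingCat.ofHom i)) f

variable {f}
variable {B : Type u} [CommRing B] {B' : Type u} [CommRing B'] {B'' : Type u} [CommRing B'']
variable {i : K →+* B} {i' : K →+* B'} {i'' : K →+* B''}

theorem specMap_comp_of (φ : B →+* B') (h : φ.comp i = i') :
    Spec.map (CommRingCat.ofHom φ) ≫ Spec.map (CommRingCat.ofHom i) =
      Spec.map (CommRingCat.ofHom i') := by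
  rw [← Spec.map_comp, ← CommRingCat.ofHom_comp, h]

/-- functoriality of `Pt` in the `K`-algebra. -/
def mapPt (φ : B →+* B') (h : φ.comp i = i') (x : Pt f i) : Pt f i' :=
  schemeHomOverComp (Spec.map (CommRingCat.ofHom φ)) (specMap_comp_of φ h) x

@[simp]
theorem mapPt_coe (φ : B →+* B') (h : φ.comp i = i') (x : Pt f i) :
    (mapPt φ h x).1 = Spec.map (CommRingCat.ofHom φ) ≫ x.1 := rfl

theorem mapPt_id (h : (RingHom.id B).comp i = i) (x : Pt f i) :
    mapPt (RingHom.id B) h x = x := by
  apply Subtype.ext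
  rw [mapPt_coe]
  have : CommRingCat.ofHom (RingHom.id B) = 𝟙 _ := rfl
  rw [this, Spec.map_id, Category.id_comp]

theorem mapPt_mapPt (φ : B →+* B') (h : φ.comp i = i') (ψ : B' →+* B'')
    (h' : ψ.comp i' = i'') (x : Pt f i) :
    mapPt ψ h' (mapPt φ h x) = mapPt (ψ.comp φ) (by rw [RingHom.comp_assoc, h, h']) x := by
  apply Subtype.ext
  simp only [mapPt_coe]
  rw [CommRingCat.ofHom_comp, Spec.map_comp, Category.assoc]

theorem mapPt_congr {φ φ' : B →+* B'} (e : φ = φ') (h : φ.comp i = i') (h' : φ'.comp i = i')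
    (x : Pt f i) : mapPt φ h x = mapPt φ' h' x := by
  subst e; rfl

/-- `Pt f i` as an additive commutative group. -/
@[reducible]
def ptAddCommGroup (L : RelativeGroupLaw K f) (hc : L.IsCommutative) (i : K →+* B) :
    AddCommGroup (Pt f i) where
  add x y := L.mul _ x y
  zero := L.one _
  neg x := L.inv _ x
  add_assoc := L.mul_assoc _
  zero_add := L.one_mul _
  add_zero := L.mul_one _
  neg_add_cancel := L.inv_mul_cancel _
  add_comm := fun x y => hc _ x y
  nsmul := @nsmulRec _ ⟨L.one _⟩ ⟨fun x y => L.mul _ x y⟩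
  zsmul := @zsmulRec _ ⟨L.one _⟩ ⟨fun x y => L.mul _ x y⟩ ⟨fun x => L.inv _ x⟩
    (@nsmulRec _ ⟨L.one _⟩ ⟨fun x y => L.mul _ x y⟩)

theorem mapPt_mul (L : RelativeGroupLaw K f) (φ : B →+* B') (h : φ.comp i = i')
    (x y : Pt f i) :
    mapPt φ h (L.mul _ x y) = L.mul _ (mapPt φ h x) (mapPt φ h y) :=
  L.mul_natural _ _ _ _ x y

theorem mapPt_one (L : RelativeGroupLaw K f) (φ : B →+* B') (h : φ.comp i = i') :
    mapPt φ h (L.one (Spec.map (CommRingCat.ofHom i))) =
      L.one (Spec.map (CommRingCat.ofHom i')) :=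
  L.one_natural _ _ _ _

/-- `mapPt` as an additive homomorphism. -/
def mapPtHom (L : RelativeGroupLaw K f) (hc : L.IsCommutative) (φ : B →+* B')
    (h : φ.comp i = i') :
    letI := ptAddCommGroup L hc i
    letI := ptAddCommGroup L hc i'
    Pt f i →+ Pt f i' :=
  letI := ptAddCommGroup L hc i
  letI := ptAddCommGroup L hc i'
  { toFun := mapPt φ h
    map_zero' := mapPt_one L φ h
    map_add' := mapPt_mul L φ h }

/-! ### valuative criterion -/

section Valuative

variable {R : Type u} [CommRing R] [IsDomain R] [ValuationRing R]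
  {k : Type u} [Field k] [Algebra R k] [IsFractionRing R k]

/-- the two lifts agree (separatedness). -/
theorem pt_ext_of_valuationRing [IsSeparated f] {iR : K →+* R} {ik : K →+* k}
    (h : (algebraMap R k).comp iR = ik) {x y : Pt f iR}
    (hxy : mapPt (algebraMap R k) h x = mapPt (algebraMap R k) h y) : x = y := by
  have hU := IsSeparated.valuativeCriterion f
  let S : ValuativeCommSq f :=
    { R := R, K := k
      i₁ := Spec.map (CommRingCat.ofHom (algebraMap R k)) ≫ x.1
      i₂ := Spec.map (CommRingCat.ofHom iR)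
      commSq := ⟨by rw [Category.assoc, x.2]⟩ }
  have hS : Subsingleton S.commSq.LiftStruct := hU S
  let l₁ : S.commSq.LiftStruct := ⟨x.1, rfl, x.2⟩
  let l₂ : S.commSq.LiftStruct := ⟨y.1, (congrArg Subtype.val hxy).symm, y.2⟩
  have h12 : l₁ = l₂ := Subsingleton.elim _ _
  exact Subtype.ext (congrArg CommSq.LiftStruct.l h12)

/-- existence of a lift (properness). -/
theorem exists_pt_of_valuationRing [IsProper f] {iR : K →+* R} {ik : K →+* k}
    (h : (algebraMap R k).comp iR = ik) (x : Pt f ik) :
    ∃ y : Pt f iR, mapPt (algebraMap R k) h y = x := by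
  have hV : ValuativeCriterion f := by
    have h1 : (@IsProper) f := inferInstance
    rw [IsProper.eq_valuativeCriterion] at h1
    exact h1.1.1.1
  let S : ValuativeCommSq f :=
    { R := R, K := k
      i₁ := x.1
      i₂ := Spec.map (CommRingCat.ofHom iR)
      commSq := ⟨by rw [x.2, specMap_comp_of _ h]⟩ }
  obtain ⟨l, hl₁, hl₂⟩ := (hV.existence S).exists_lift
  exact ⟨⟨l, hl₂⟩, Subtype.ext hl₁⟩

theorem mapPt_bijective_of_valuationRing [IsProper f] {iR : K →+* R} {ik : K →+* k}
    (h : (algebraMap R k).comp iR = ik) :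
    Function.Bijective (mapPt (f := f) (algebraMap R k) h) :=
  ⟨fun _ _ hxy => pt_ext_of_valuationRing h hxy, exists_pt_of_valuationRing h⟩

/-- the extension of a `k`-point to an `R`-point. -/
def liftPt [IsProper f] {iR : K →+* R} {ik : K →+* k}
    (h : (algebraMap R k).comp iR = ik) (x : Pt f ik) : Pt f iR :=
  (exists_pt_of_valuationRing h x).choose

@[simp]
theorem mapPt_liftPt [IsProper f] {iR : K →+* R} {ik : K →+* k}
    (h : (algebraMap R k).comp iR = ik) (x : Pt f ik) :
    mapPt (algebraMap R k) h (liftPt h x) = x :=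
  (exists_pt_of_valuationRing h x).choose_spec

theorem liftPt_eq_iff [IsProper f] {iR : K →+* R} {ik : K →+* k}
    (h : (algebraMap R k).comp iR = ik) (x : Pt f ik) (y : Pt f iR) :
    liftPt h x = y ↔ x = mapPt (algebraMap R k) h y := by
  constructor
  · rintro rfl; simp
  · rintro rfl; exact pt_ext_of_valuationRing h (by simp)

@[simp]
theorem liftPt_mapPt [IsProper f] {iR : K →+* R} {ik : K →+* k}
    (h : (algebraMap R k).comp iR = ik) (y : Pt f iR) :
    liftPt h (mapPt (algebraMap R k) h y) = y :=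
  (liftPt_eq_iff h _ y).2 rfl

theorem liftPt_mul [IsProper f] (L : RelativeGroupLaw K f) {iR : K →+* R} {ik : K →+* k}
    (h : (algebraMap R k).comp iR = ik) (x y : Pt f ik) :
    liftPt h (L.mul _ x y) = L.mul _ (liftPt h x) (liftPt h y) := by
  rw [liftPt_eq_iff, mapPt_mul, mapPt_liftPt, mapPt_liftPt]

theorem liftPt_one [IsProper f] (L : RelativeGroupLaw K f) {iR : K →+* R} {ik : K →+* k}
    (h : (algebraMap R k).comp iR = ik) :
    liftPt h (L.one (Spec.map (CommRingCat.ofHom ik))) =
      L.one (Spec.map (CommRingCat.ofHom iR)) := by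
  rw [liftPt_eq_iff, mapPt_one]

end Valuative

/-- naturality of `liftPt`: a commutative square `R → R'`, `k → k'`. -/
theorem liftPt_mapPt_square [IsProper f]
    {R : Type u} [CommRing R] [IsDomain R] [ValuationRing R]
    {k : Type u} [Field k] [Algebra R k] [IsFractionRing R k]
    {R' : Type u} [CommRing R'] [IsDomain R'] [ValuationRing R']
    {k' : Type u} [Field k'] [Algebra R' k'] [IsFractionRing R' k']
    {iR : K →+* R} {ik : K →+* k} (h : (algebraMap R k).comp iR = ik)
    {iR' : K →+* R'} {ik' : K →+* k'} (h' : (algebraMap R' k').comp iR' = ik')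
    (σ : k →+* k') (hσ : σ.comp ik = ik') (τ : R →+* R') (hτ : τ.comp iR = iR')
    (hστ : σ.comp (algebraMap R k) = (algebraMap R' k').comp τ) (x : Pt f ik) :
    liftPt h' (mapPt σ hσ x) = mapPt τ hτ (liftPt h x) := by
  rw [liftPt_eq_iff, mapPt_mapPt]
  conv_lhs => rw [← mapPt_liftPt h x, mapPt_mapPt]
  exact mapPt_congr hστ _ _ _

end Fermat.Agent.AVS

end
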