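import Fermat.Agent.AVS.Place

/-!
# S26, block (h): points of a `K`-scheme with values in local rings and stalks
-/

set_option autoImplicit false

noncomputable section

universe u

open CategoryTheory CategoryTheory.Limits AlgebraicGeometry NeronModelInfra GoodReductionJacobian
open IsLocalRing

namespace Fermat.Agent.AVS

variable {K : Type u} [Field K] {A : Scheme.{u}}

/-- a morphism to an affine scheme is determined by global sections. -/
theorem eq_toSpecΓ_comp {X : Scheme.{u}} {R : CommRingCat.{u}} (g : X ⟶ Spec R) :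
    g = X.toSpecΓ ≫ Spec.map ((Scheme.ΓSpecIso R).inv ≫ g.appTop) := by
  rw [Spec.map_comp, ← Scheme.toSpecΓ_naturality_assoc]
  have : (Spec R).toSpecΓ ≫ Spec.map (Scheme.ΓSpecIso R).inv = 𝟙 _ := by
    rw [← SpecMap_ΓSpecIso_hom, ← Spec.map_comp, Iso.inv_hom_id, Spec.map_id]
  rw [this, Category.comp_id]

/-- the `K`-algebra structure of the ring of sections. -/
def kSec (f : A ⟶ Spec (CommRingCat.of K)) (U : A.Opens) : K →+* Γ(A, U) :=
  ((Scheme.ΓSpecIso (CommRingCat.of K)).inv ≫ f.appTop ≫
    A.presheaf.map (homOfLE le_top).op).hom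

/-- the `K`-algebra structure of a stalk. -/
def kStalk (f : A ⟶ Spec (CommRingCat.of K)) (ξ : A) : K →+* A.presheaf.stalk ξ :=
  ((Scheme.ΓSpecIso (CommRingCat.of K)).inv ≫ f.appTop ≫ A.presheaf.germ ⊤ ξ trivial).hom

theorem ofHom_kStalk (f : A ⟶ Spec (CommRingCat.of K)) (ξ : A) :
    CommRingCat.ofHom (kStalk f ξ) =
      (Scheme.ΓSpecIso (CommRingCat.of K)).inv ≫ f.appTop ≫ A.presheaf.germ ⊤ ξ trivial := rfl

theorem germ_comp_kSec (f : A ⟶ Spec (CommRingCat.of K)) (U : A.Opens) (ξ : A) (h : ξ ∈ U) :
    (A.presheaf.germ U ξ h).hom.comp (kSec f U) = kStalk f ξ := by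
  unfold kSec kStalk
  rw [← CommRingCat.hom_comp]
  simp only [Category.assoc, TopCat.Presheaf.germ_res]

theorem fromSpecStalk_comp (f : A ⟶ Spec (CommRingCat.of K)) (ξ : A) :
    A.fromSpecStalk ξ ≫ f = Spec.map (CommRingCat.ofHom (kStalk f ξ)) := by
  conv_lhs => rw [eq_toSpecΓ_comp f]
  rw [Scheme.fromSpecStalk_toSpecΓ_assoc, ← Spec.map_comp, Category.assoc]
  rfl

/-- the tautological `O_ξ`-point. -/
def stalkPt (f : A ⟶ Spec (CommRingCat.of K)) (ξ : A) : Pt f (kStalk f ξ) :=
  ⟨A.fromSpecStalk ξ, fromSpecStalk_comp f ξ⟩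

@[simp]
theorem stalkPt_coe (f : A ⟶ Spec (CommRingCat.of K)) (ξ : A) :
    (stalkPt f ξ).1 = A.fromSpecStalk ξ := rfl

section Local

variable {f : A ⟶ Spec (CommRingCat.of K)}
variable {B : Type u} [CommRing B] [IsLocalRing B] {i : K →+* B}

/-- the image of the closed point. -/
def center (x : Pt f i) : A := x.1.base (closedPoint B)

/-- the local homomorphism `O_{center x} → B`. -/
def stalkHom (x : Pt f i) : A.presheaf.stalk (center x) →+* B :=
  (Scheme.stalkClosedPointTo (R := CommRingCat.of B) x.1).hom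

instance isLocalHom_stalkHom (x : Pt f i) : IsLocalHom (stalkHom x) :=
  Scheme.isLocalHom_stalkClosedPointTo' x.1

theorem specMap_stalkHom (x : Pt f i) :
    Spec.map (CommRingCat.ofHom (stalkHom x)) ≫ A.fromSpecStalk (center x) = x.1 :=
  Scheme.Spec_stalkClosedPointTo_fromSpecStalk (R := CommRingCat.of B) x.1

theorem stalkHom_comp_kStalk (x : Pt f i) : (stalkHom x).comp (kStalk f (center x)) = i := by
  have h1 : Spec.map (CommRingCat.ofHom (stalkHom x)) ≫
      Spec.map (CommRingCat.ofHom (kStalk f (center x))) = Spec.map (CommRingCat.ofHom i) := by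
    rw [← fromSpecStalk_comp, ← Category.assoc, specMap_stalkHom, x.2]
  rw [← Spec.map_comp] at h1
  have h2 := Spec.map_injective h1
  rw [← CommRingCat.ofHom_comp] at h2
  exact congrArg CommRingCat.Hom.hom h2

theorem mapPt_stalkHom (x : Pt f i) :
    mapPt (stalkHom x) (stalkHom_comp_kStalk x) (stalkPt f (center x)) = x :=
  Subtype.ext (specMap_stalkHom x)

/-- every point with values in a local ring comes from a local homomorphism from a stalk. -/
theorem exists_stalk (x : Pt f i) : ∃ (ξ : A) (φ : A.presheaf.stalk ξ →+* B)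
    (h : φ.comp (kStalk f ξ) = i), IsLocalHom φ ∧ center x = ξ ∧ mapPt φ h (stalkPt f ξ) = x :=
  ⟨center x, stalkHom x, stalkHom_comp_kStalk x, inferInstance, rfl, mapPt_stalkHom x⟩

theorem center_mapPt_stalkPt {ξ : A} (φ : A.presheaf.stalk ξ →+* B) [IsLocalHom φ]
    (h : φ.comp (kStalk f ξ) = i) : center (mapPt φ h (stalkPt f ξ)) = ξ := by
  show (Spec.map (CommRingCat.ofHom φ) ≫ A.fromSpecStalk ξ).base (closedPoint B) = ξ
  rw [Scheme.Hom.comp_base, TopCat.comp_app]
  have : (Spec.map (CommRingCat.ofHom φ)).base (closedPoint B) =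
      closedPoint (A.presheaf.stalk ξ) := IsLocalRing.comap_closedPoint φ
  rw [this]
  exact Scheme.fromSpecStalk_closedPoint

omit [IsLocalRing B] in
/-- two local homomorphisms from the same stalk giving the same point are equal. -/
theorem stalkHom_unique {ξ : A} {φ ψ : A.presheaf.stalk ξ →+* B}
    (hφ : φ.comp (kStalk f ξ) = i) (hψ : ψ.comp (kStalk f ξ) = i)
    (h : mapPt φ hφ (stalkPt f ξ) = mapPt ψ hψ (stalkPt f ξ)) : φ = ψ := by
  have h1 : Spec.map (CommRingCat.ofHom φ) ≫ A.fromSpecStalk ξ =
      Spec.map (CommRingCat.ofHom ψ) ≫ A.fromSpecStalk ξ := congrArg Subtype.val h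
  rw [cancel_mono] at h1
  exact congrArg CommRingCat.Hom.hom (Spec.map_injective h1)

variable {B' : Type u} [CommRing B'] [IsLocalRing B'] {i' : K →+* B'}

/-- the center of a base change is a generization. -/
theorem center_mapPt_specializes (φ : B →+* B') (h : φ.comp i = i') (x : Pt f i) :
    center (mapPt φ h x) ⤳ center x := by
  have h1 : center (mapPt φ h x) =
      x.1.base ((Spec.map (CommRingCat.ofHom φ)).base (closedPoint B')) := rfl
  rw [h1]
  exact (IsLocalRing.specializes_closedPoint _).map x.1.continuous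

/-- for a local homomorphism the center does not change. -/
theorem center_mapPt (φ : B →+* B') [IsLocalHom φ] (h : φ.comp i = i') (x : Pt f i) :
    center (mapPt φ h x) = center x := by
  have h1 : center (mapPt φ h x) =
      x.1.base ((Spec.map (CommRingCat.ofHom φ)).base (closedPoint B')) := rfl
  have h2 : (Spec.map (CommRingCat.ofHom φ)).base (closedPoint B') = closedPoint B :=
    IsLocalRing.comap_closedPoint φ
  rw [h1, h2]
  rfl

/-- naturality of `stalkHom`. -/
theorem stalkHom_mapPt (φ : B →+* B') (h : φ.comp i = i') (x : Pt f i) :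
    (stalkHom (mapPt φ h x)).comp
      (A.presheaf.stalkSpecializes (center_mapPt_specializes φ h x)).hom =
      φ.comp (stalkHom x) := by
  have h1 : Spec.map (CommRingCat.ofHom ((stalkHom (mapPt φ h x)).comp
      (A.presheaf.stalkSpecializes (center_mapPt_specializes φ h x)).hom)) ≫
      A.fromSpecStalk (center x) =
      Spec.map (CommRingCat.ofHom (φ.comp (stalkHom x))) ≫ A.fromSpecStalk (center x) := by
    rw [CommRingCat.ofHom_comp, CommRingCat.ofHom_comp, Spec.map_comp, Spec.map_comp,
      Category.assoc, Category.assoc, specMap_stalkHom]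
    rw [show CommRingCat.ofHom (CommRingCat.Hom.hom (A.presheaf.stalkSpecializes
      (center_mapPt_specializes φ h x))) = A.presheaf.stalkSpecializes
      (center_mapPt_specializes φ h x) from rfl,
      Scheme.SpecMap_stalkSpecializes_fromSpecStalk, specMap_stalkHom, mapPt_coe]
  rw [cancel_mono] at h1
  exact congrArg CommRingCat.Hom.hom (Spec.map_injective h1)

end Local

section Field

variable {f : A ⟶ Spec (CommRingCat.of K)} {Ω : Type u} [Field Ω] {i : K →+* Ω}

/-- the `K`-algebra structure of the residue field of a point. -/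
def kRes (f : A ⟶ Spec (CommRingCat.of K)) (ξ : A) : K →+* A.residueField ξ :=
  (A.residue ξ).hom.comp (kStalk f ξ)

/-- the tautological `κ(ξ)`-point. -/
def resPt (f : A ⟶ Spec (CommRingCat.of K)) (ξ : A) : Pt f (kRes f ξ) :=
  mapPt (A.residue ξ).hom rfl (stalkPt f ξ)

/-- the embedding `κ(center x) → Ω` of a point with values in a field. -/
def resHom (x : Pt f i) : A.residueField (center x) →+* Ω :=
  IsLocalRing.ResidueField.lift (stalkHom x)

theorem resHom_residue (x : Pt f i) (a : A.presheaf.stalk (center x)) :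
    resHom x ((A.residue (center x)).hom a) = stalkHom x a := rfl

theorem resHom_comp_residue (x : Pt f i) :
    (resHom x).comp (A.residue (center x)).hom = stalkHom x := rfl

theorem resHom_comp_kRes (x : Pt f i) : (resHom x).comp (kRes f (center x)) = i := by
  rw [kRes, ← RingHom.comp_assoc, resHom_comp_residue, stalkHom_comp_kStalk]

theorem mapPt_resHom (x : Pt f i) :
    mapPt (resHom x) (resHom_comp_kRes x) (resPt f (center x)) = x := by
  rw [resPt, mapPt_mapPt]
  exact mapPt_stalkHom x

theorem residue_surjective (ξ : A) : Function.Surjective (A.residue ξ).hom :=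
  Ideal.Quotient.mk_surjective

/-- two embeddings of `κ(ξ)` giving the same point are equal. -/
theorem resHom_unique {B : Type u} [CommRing B] {i : K →+* B} {ξ : A}
    {φ ψ : A.residueField ξ →+* B}
    (hφ : φ.comp (kRes f ξ) = i) (hψ : ψ.comp (kRes f ξ) = i)
    (h : mapPt φ hφ (resPt f ξ) = mapPt ψ hψ (resPt f ξ)) : φ = ψ := by
  rw [resPt, mapPt_mapPt, mapPt_mapPt] at h
  have h1 := stalkHom_unique _ _ h
  exact (RingHom.cancel_right (residue_surjective ξ)).1 h1

theorem center_resPt (ξ : A) : center (resPt f ξ) = ξ := by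
  have : IsLocalHom (A.residue ξ).hom :=
    inferInstanceAs (IsLocalHom (IsLocalRing.residue (A.presheaf.stalk ξ)))
  rw [resPt, center_mapPt]
  have := center_mapPt_stalkPt (f := f) (ξ := ξ) (RingHom.id _) (i := kStalk f ξ) (by rfl)
  rwa [mapPt_id] at this

end Field

end Fermat.Agent.AVS

end
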